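import Mathlib
import Fermat.Prelude.Def_CuspForm_HeckeAlgebra
import Fermat.Agent.S23.H6.Integral
import Fermat.Agent.S23.H76.HeckeFinite

/-!
# S22 from conjugation-stability of cusp forms (route via S23)

If, for every level `N` and weight `k`, the space of cusp forms on `Γ₀(N)` is stable under
conjugation of `q`-expansions by field automorphisms of `ℂ` (package P8 of the S23 project),
then every Hecke algebra `CuspForm.heckeAlgebra N k S` is a finite `ℤ`-module.
-/

set_option autoImplicit false

open CongruenceSubgroup UpperHalfPlane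

namespace Fermat.Agent.S22.H76

/-- The conjugation hypothesis in weight `k` and level `N` (the conclusion of S23's package P8). -/
def ConjStable (N : ℕ) (k : ℤ) : Prop :=
  ∀ (σ : ℂ ≃+* ℂ) (f : CuspForm (Gamma0 N) k), ∃ f' : CuspForm (Gamma0 N) k,
    ∀ n, (qExpansion 1 ⇑f').coeff n = σ ((qExpansion 1 ⇑f).coeff n)

/-- Conjugation-stability in all weights `k ≥ 1` at level `N` makes every Hecke algebra of
level `N` a finite `ℤ`-module. -/
theorem moduleFinite_heckeAlgebra_of_conjStable (N : ℕ) [NeZero N]
    (hconj : ∀ k : ℤ, 1 ≤ k → ConjStable N k) (k : ℤ) (S : Set ℕ) :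
    Module.Finite ℤ (CuspForm.heckeAlgebra N k S) :=
  Fermat.Agent.S23.H76.heckeAlgebra_finite_of_forall N
    (fun k hk => Fermat.Agent.S23.H6.hasIntegralStructure_of_conj N k (hconj k hk)) k S

end Fermat.Agent.S22.H76
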